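/-
GEN-10 (P-GENUS), core part: the field of meromorphic germs at a point `x : ℂ`, realised as a
subring of `Filter.Germ (𝓝[≠] x) ℂ`, with its order valuation and derivative.
Only Mathlib is used here.
-/
import Mathlib

set_option autoImplicit false

noncomputable section

open Filter Topology

namespace Fermat.Agent.H33

/-- The subring of germs (along the punctured neighbourhood filter of `x`) of functions which are
meromorphic at `x`. -/
def merGermSubring (x : ℂ) : Subring (Filter.Germ (𝓝[≠] x) ℂ) where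
  carrier := {a | ∃ f : ℂ → ℂ, MeromorphicAt f x ∧ (f : Filter.Germ (𝓝[≠] x) ℂ) = a}
  mul_mem' := by
    rintro _ _ ⟨f, hf, rfl⟩ ⟨g, hg, rfl⟩
    exact ⟨f * g, hf.mul hg, rfl⟩
  one_mem' := ⟨fun _ => 1, MeromorphicAt.const 1 x, rfl⟩
  add_mem' := by
    rintro _ _ ⟨f, hf, rfl⟩ ⟨g, hg, rfl⟩
    exact ⟨f + g, hf.add hg, rfl⟩
  zero_mem' := ⟨fun _ => 0, MeromorphicAt.const 0 x, rfl⟩
  neg_mem' := by
    rintro _ ⟨f, hf, rfl⟩
    exact ⟨-f, hf.neg, rfl⟩

/-- The germ of a function meromorphic at `x`, as an element of `merGermSubring x`. -/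
def merGermMk (x : ℂ) (f : ℂ → ℂ) (hf : MeromorphicAt f x) : ↥(merGermSubring x) :=
  ⟨(f : Filter.Germ (𝓝[≠] x) ℂ), f, hf, rfl⟩

lemma merGermMk_surjective (x : ℂ) (a : ↥(merGermSubring x)) :
    ∃ (f : ℂ → ℂ) (hf : MeromorphicAt f x), merGermMk x f hf = a := by
  obtain ⟨a, f, hf, rfl⟩ := a
  exact ⟨f, hf, rfl⟩

lemma merGermMk_eq_iff (x : ℂ) {f g : ℂ → ℂ} (hf : MeromorphicAt f x) (hg : MeromorphicAt g x) :
    merGermMk x f hf = merGermMk x g hg ↔ f =ᶠ[𝓝[≠] x] g := by
  rw [Subtype.ext_iff]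
  exact Filter.Germ.coe_eq

lemma merGermMk_add (x : ℂ) {f g : ℂ → ℂ} (hf : MeromorphicAt f x) (hg : MeromorphicAt g x) :
    merGermMk x (f + g) (hf.add hg) = merGermMk x f hf + merGermMk x g hg := rfl

lemma merGermMk_mul (x : ℂ) {f g : ℂ → ℂ} (hf : MeromorphicAt f x) (hg : MeromorphicAt g x) :
    merGermMk x (f * g) (hf.mul hg) = merGermMk x f hf * merGermMk x g hg := rfl

lemma merGermMk_one (x : ℂ) :
    merGermMk x (fun _ => 1) (MeromorphicAt.const 1 x) = 1 := rfl

lemma merGermMk_zero (x : ℂ) :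
    merGermMk x (fun _ => 0) (MeromorphicAt.const 0 x) = 0 := rfl

lemma merGermSubring_isField (x : ℂ) : IsField ↥(merGermSubring x) where
  exists_pair_ne := by
    refine ⟨0, 1, ?_⟩
    rw [← merGermMk_zero, ← merGermMk_one]
    intro h
    rw [merGermMk_eq_iff] at h
    have : (𝓝[≠] x).NeBot := NormedField.nhdsNE_neBot x
    obtain ⟨y, hy⟩ := h.exists
    exact zero_ne_one hy
  mul_comm := mul_comm
  mul_inv_cancel := by
    intro a ha
    obtain ⟨f, hf, rfl⟩ := merGermMk_surjective x a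
    refine ⟨merGermMk x f⁻¹ hf.inv, ?_⟩
    rw [← merGermMk_mul, ← merGermMk_one, merGermMk_eq_iff]
    rcases hf.eventually_eq_zero_or_eventually_ne_zero with h | h
    · exfalso
      apply ha
      rw [← merGermMk_zero, merGermMk_eq_iff]
      exact h
    · filter_upwards [h] with z hz
      simp [hz]

/-- The type of meromorphic germs at `x`. -/
def MerGerm (x : ℂ) : Type := ↥(merGermSubring x)

instance instFieldMerGerm (x : ℂ) : Field (MerGerm x) :=
  IsField.toField (R := ↥(merGermSubring x)) (merGermSubring_isField x)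

open Classical in
/-- The germ of `f` at `x` (junk value `0` unless `f` is meromorphic at `x`). -/
def merGerm (x : ℂ) (f : ℂ → ℂ) : MerGerm x :=
  if h : MeromorphicAt f x then merGermMk x f h else 0

lemma merGerm_of_mer (x : ℂ) {f : ℂ → ℂ} (hf : MeromorphicAt f x) :
    merGerm x f = merGermMk x f hf := dif_pos hf

lemma merGerm_surj (x : ℂ) (a : MerGerm x) : ∃ f : ℂ → ℂ, MeromorphicAt f x ∧ merGerm x f = a := by
  obtain ⟨f, hf, h⟩ := merGermMk_surjective x a
  exact ⟨f, hf, (merGerm_of_mer x hf).trans h⟩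

lemma merGerm_eq_iff (x : ℂ) (f g : ℂ → ℂ) (hf : MeromorphicAt f x) (hg : MeromorphicAt g x) :
    merGerm x f = merGerm x g ↔ f =ᶠ[𝓝[≠] x] g := by
  rw [merGerm_of_mer x hf, merGerm_of_mer x hg]
  exact merGermMk_eq_iff x hf hg

lemma merGerm_add (x : ℂ) (f g : ℂ → ℂ) (hf : MeromorphicAt f x) (hg : MeromorphicAt g x) :
    merGerm x (f + g) = merGerm x f + merGerm x g := by
  rw [merGerm_of_mer x hf, merGerm_of_mer x hg, merGerm_of_mer x (hf.add hg)]
  exact merGermMk_add x hf hg

lemma merGerm_mul (x : ℂ) (f g : ℂ → ℂ) (hf : MeromorphicAt f x) (hg : MeromorphicAt g x) :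
    merGerm x (f * g) = merGerm x f * merGerm x g := by
  rw [merGerm_of_mer x hf, merGerm_of_mer x hg, merGerm_of_mer x (hf.mul hg)]
  exact merGermMk_mul x hf hg

lemma merGerm_one (x : ℂ) : merGerm x (fun _ => 1) = 1 := by
  rw [merGerm_of_mer x (MeromorphicAt.const 1 x)]
  exact merGermMk_one x

lemma merGerm_zero (x : ℂ) : merGerm x (fun _ => 0) = 0 := by
  rw [merGerm_of_mer x (MeromorphicAt.const 0 x)]
  exact merGermMk_zero x

/-- A chosen representative of a meromorphic germ. -/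
def MerGerm.rep {x : ℂ} (a : MerGerm x) : ℂ → ℂ := (merGerm_surj x a).choose

lemma MerGerm.rep_mer {x : ℂ} (a : MerGerm x) : MeromorphicAt a.rep x :=
  (merGerm_surj x a).choose_spec.1

lemma MerGerm.germ_rep {x : ℂ} (a : MerGerm x) : merGerm x a.rep = a :=
  (merGerm_surj x a).choose_spec.2

lemma MerGerm.rep_germ {x : ℂ} {f : ℂ → ℂ} (hf : MeromorphicAt f x) :
    (merGerm x f).rep =ᶠ[𝓝[≠] x] f :=
  (merGerm_eq_iff x _ _ (MerGerm.rep_mer _) hf).1 (MerGerm.germ_rep _)

/-- The order function on germs. -/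
def merValFun (x : ℂ) (a : MerGerm x) : WithTop ℤ := meromorphicOrderAt a.rep x

lemma merValFun_germ (x : ℂ) {f : ℂ → ℂ} (hf : MeromorphicAt f x) :
    merValFun x (merGerm x f) = meromorphicOrderAt f x :=
  meromorphicOrderAt_congr (MerGerm.rep_germ hf)

/-- The order valuation on the field of meromorphic germs. -/
def merVal (x : ℂ) : AddValuation (MerGerm x) (WithTop ℤ) :=
  AddValuation.of (merValFun x)
    (by
      rw [← merGerm_zero, merValFun_germ x (MeromorphicAt.const 0 x)]
      simp [meromorphicOrderAt_const])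
    (by
      rw [← merGerm_one, merValFun_germ x (MeromorphicAt.const 1 x)]
      simp [meromorphicOrderAt_const])
    (by
      intro a b
      obtain ⟨f, hf, rfl⟩ := merGerm_surj x a
      obtain ⟨g, hg, rfl⟩ := merGerm_surj x b
      rw [← merGerm_add x f g hf hg, merValFun_germ x hf, merValFun_germ x hg,
        merValFun_germ x (hf.add hg)]
      exact meromorphicOrderAt_add hf hg)
    (by
      intro a b
      obtain ⟨f, hf, rfl⟩ := merGerm_surj x a
      obtain ⟨g, hg, rfl⟩ := merGerm_surj x b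
      rw [← merGerm_mul x f g hf hg, merValFun_germ x hf, merValFun_germ x hg,
        merValFun_germ x (hf.mul hg)]
      exact meromorphicOrderAt_mul hf hg)

lemma merVal_germ (x : ℂ) (f : ℂ → ℂ) (hf : MeromorphicAt f x) :
    merVal x (merGerm x f) = meromorphicOrderAt f x :=
  merValFun_germ x hf

/-- The derivative on germs. -/
def merDer (x : ℂ) (a : MerGerm x) : MerGerm x := merGerm x (deriv a.rep)

lemma merDer_germ (x : ℂ) (f : ℂ → ℂ) (hf : MeromorphicAt f x) :
    merDer x (merGerm x f) = merGerm x (deriv f) :=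
  (merGerm_eq_iff x _ _ (MerGerm.rep_mer _).deriv hf.deriv).2 (MerGerm.rep_germ hf).nhdsNE_deriv

lemma merDer_add (x : ℂ) (a b : MerGerm x) : merDer x (a + b) = merDer x a + merDer x b := by
  obtain ⟨f, hf, rfl⟩ := merGerm_surj x a
  obtain ⟨g, hg, rfl⟩ := merGerm_surj x b
  rw [← merGerm_add x f g hf hg, merDer_germ x _ hf, merDer_germ x _ hg,
    merDer_germ x _ (hf.add hg), ← merGerm_add x _ _ hf.deriv hg.deriv,
    merGerm_eq_iff x _ _ (hf.add hg).deriv (hf.deriv.add hg.deriv)]
  filter_upwards [hf.eventually_analyticAt, hg.eventually_analyticAt] with z hfz hgz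
  simp only [Pi.add_apply]
  exact deriv_add hfz.differentiableAt hgz.differentiableAt

lemma merDer_mul (x : ℂ) (a b : MerGerm x) :
    merDer x (a * b) = a * merDer x b + merDer x a * b := by
  obtain ⟨f, hf, rfl⟩ := merGerm_surj x a
  obtain ⟨g, hg, rfl⟩ := merGerm_surj x b
  rw [← merGerm_mul x f g hf hg, merDer_germ x _ hf, merDer_germ x _ hg,
    merDer_germ x _ (hf.mul hg), ← merGerm_mul x _ _ hf hg.deriv,
    ← merGerm_mul x _ _ hf.deriv hg, ← merGerm_add x _ _ (hf.mul hg.deriv) (hf.deriv.mul hg),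
    merGerm_eq_iff x _ _ (hf.mul hg).deriv ((hf.mul hg.deriv).add (hf.deriv.mul hg))]
  filter_upwards [hf.eventually_analyticAt, hg.eventually_analyticAt] with z hfz hgz
  simp only [Pi.add_apply, Pi.mul_apply]
  rw [deriv_mul hfz.differentiableAt hgz.differentiableAt]
  ring

lemma merVal_der (x : ℂ) (a : MerGerm x) (n : ℤ) (hn : n ≠ 0)
    (h : merVal x a = (n : WithTop ℤ)) :
    merVal x (merDer x a) = ((n - 1 : ℤ) : WithTop ℤ) := by
  obtain ⟨f, hf, rfl⟩ := merGerm_surj x a
  rw [merVal_germ x f hf] at h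
  rw [merDer_germ x f hf, merVal_germ x _ hf.deriv]
  exact meromorphicOrderAt_deriv_eq_sub_one (by exact_mod_cast hn) h

end Fermat.Agent.H33

end
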