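/-
GEN-10 (P-GENUS): meromorphic germ fields exist at every point
(`Fermat.Agent.H23.MerGermStatement`).
-/
import Fermat.Agent.H23.BlueprintAn
import Fermat.Agent.H33.MerGermCore

set_option autoImplicit false

noncomputable section

open Filter Topology

namespace Fermat.Agent.H33

/-- The field of meromorphic germs at `x`, packaged as a `MerGermField`. -/
def merGermField (x : ℂ) : Fermat.Agent.H23.MerGermField x where
  M := MerGerm x
  fieldM := instFieldMerGerm x
  val := merVal x
  der := merDer x
  der_add := merDer_add x
  der_mul := merDer_mul x
  val_der := merVal_der x
  germ := merGerm x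
  germ_surj := merGerm_surj x
  germ_add := merGerm_add x
  germ_mul := merGerm_mul x
  germ_one := merGerm_one x
  germ_eq_iff := merGerm_eq_iff x
  val_germ := merVal_germ x
  der_germ := merDer_germ x

/-- **GEN-10**: meromorphic germ fields exist at every point. -/
theorem merGerm_statement : Fermat.Agent.H23.MerGermStatement :=
  fun x => ⟨merGermField x⟩

end Fermat.Agent.H33

end
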