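import Mathlib

/-!
# Holomorphic quotients via the removable singularity theorem (helper33, P-INT / INT-8)
-/

open Filter Topology Set Function

namespace Fermat.Agent.H33

/-- A root of a monic polynomial is bounded by `max 1 (∑ ‖aᵢ‖)`. -/
lemma norm_le_of_monic_eq (μ : ℕ) (a : ℕ → ℂ) (x : ℂ)
    (hx : x ^ μ + ∑ i ∈ Finset.range μ, a i * x ^ i = 0) :
    ‖x‖ ≤ max 1 (∑ i ∈ Finset.range μ, ‖a i‖) := by
  by_contra hcon
  replace hcon := not_le.mp hcon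
  have h1 : 1 < ‖x‖ := lt_of_le_of_lt (le_max_left _ _) hcon
  have hS : ∑ i ∈ Finset.range μ, ‖a i‖ < ‖x‖ := lt_of_le_of_lt (le_max_right _ _) hcon
  rcases Nat.eq_zero_or_pos μ with rfl | hμ
  · simp at hx
  have hxμ : x ^ μ = - ∑ i ∈ Finset.range μ, a i * x ^ i := eq_neg_of_add_eq_zero_left hx
  have hle : ‖x‖ ^ μ ≤ (∑ i ∈ Finset.range μ, ‖a i‖) * ‖x‖ ^ (μ - 1) := by
    calc ‖x‖ ^ μ = ‖x ^ μ‖ := (norm_pow _ _).symm
      _ = ‖∑ i ∈ Finset.range μ, a i * x ^ i‖ := by rw [hxμ, norm_neg]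
      _ ≤ ∑ i ∈ Finset.range μ, ‖a i * x ^ i‖ := norm_sum_le _ _
      _ ≤ ∑ i ∈ Finset.range μ, ‖a i‖ * ‖x‖ ^ (μ - 1) := by
          apply Finset.sum_le_sum
          intro i hi
          rw [norm_mul, norm_pow]
          apply mul_le_mul_of_nonneg_left _ (norm_nonneg _)
          apply pow_le_pow_right₀ h1.le
          have := Finset.mem_range.mp hi
          omega
      _ = _ := by rw [Finset.sum_mul]
  have h2 : ‖x‖ ^ μ = ‖x‖ * ‖x‖ ^ (μ - 1) := by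
    rw [← pow_succ']
    congr 1
    omega
  rw [h2] at hle
  have hpos : 0 < ‖x‖ ^ (μ - 1) := pow_pos (lt_trans zero_lt_one h1) _
  have := le_of_mul_le_mul_right hle hpos
  linarith

/-- If the lower coefficients of a monic polynomial are small, so is the `μ`-th power of any
root. -/
lemma norm_pow_le_of_monic_eq (μ : ℕ) (a : ℕ → ℂ) (x : ℂ)
    (hx : x ^ μ + ∑ i ∈ Finset.range μ, a i * x ^ i = 0)
    (ha : ∑ i ∈ Finset.range μ, ‖a i‖ ≤ 1) :
    ‖x‖ ^ μ ≤ ∑ i ∈ Finset.range μ, ‖a i‖ := by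
  have hx1 : ‖x‖ ≤ 1 := (norm_le_of_monic_eq μ a x hx).trans (max_le le_rfl ha)
  calc ‖x‖ ^ μ = ‖x ^ μ‖ := (norm_pow _ _).symm
    _ = ‖∑ i ∈ Finset.range μ, a i * x ^ i‖ := by
        rw [eq_neg_of_add_eq_zero_left hx, norm_neg]
    _ ≤ ∑ i ∈ Finset.range μ, ‖a i * x ^ i‖ := norm_sum_le _ _
    _ ≤ ∑ i ∈ Finset.range μ, ‖a i‖ := by
        apply Finset.sum_le_sum
        intro i _
        rw [norm_mul, norm_pow]
        exact mul_le_of_le_one_right (norm_nonneg _) (pow_le_one₀ (norm_nonneg _) hx1)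

/-- Global holomorphic extension of a locally bounded quotient `q / p` of holomorphic functions,
where `p` has isolated zeros. -/
theorem exists_differentiableOn_of_locally_bounded_div {U : Set ℂ} (hU : IsOpen U)
    {p q : ℂ → ℂ} (hp : DifferentiableOn ℂ p U) (hq : DifferentiableOn ℂ q U)
    (hp0 : ∀ z₀ ∈ U, ∀ᶠ z in 𝓝[≠] z₀, p z ≠ 0)
    (hb : ∀ z₀ ∈ U, ∃ B : ℝ, ∀ᶠ z in 𝓝[≠] z₀, ‖q z / p z‖ ≤ B) :
    ∃ G : ℂ → ℂ, DifferentiableOn ℂ G U ∧ ∀ z ∈ U, G z * p z = q z := by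
  classical
  set f : ℂ → ℂ := fun w => q w / p w with hf
  set G : ℂ → ℂ := fun z => limUnder (𝓝[≠] z) f with hG
  have hGeq : ∀ z ∈ U, p z ≠ 0 → G z = q z / p z := by
    intro z hz hpz
    have hcont : ContinuousAt f z :=
      ((hq.differentiableAt (hU.mem_nhds hz)).continuousAt).div
        ((hp.differentiableAt (hU.mem_nhds hz)).continuousAt) hpz
    exact (hcont.tendsto.mono_left nhdsWithin_le_nhds).limUnder_eq
  have hdiffAt : ∀ z₀ ∈ U, DifferentiableAt ℂ G z₀ := by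
    intro z₀ hz₀
    obtain ⟨B, hB⟩ := hb z₀ hz₀
    have hev : ∀ᶠ z in 𝓝[≠] z₀, p z ≠ 0 ∧ ‖f z‖ ≤ B := (hp0 z₀ hz₀).and hB
    rw [eventually_nhdsWithin_iff] at hev
    set s : Set ℂ := {z | z ∈ ({z₀}ᶜ : Set ℂ) → p z ≠ 0 ∧ ‖f z‖ ≤ B} ∩ U with hs
    have hs_nhds : s ∈ 𝓝 z₀ := inter_mem hev (hU.mem_nhds hz₀)
    have hd : DifferentiableOn ℂ f (s \ {z₀}) := by
      intro z hz
      have hzU : z ∈ U := hz.1.2
      have hpz : p z ≠ 0 := (hz.1.1 hz.2).1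
      exact ((hq.differentiableAt (hU.mem_nhds hzU)).div
        (hp.differentiableAt (hU.mem_nhds hzU)) hpz).differentiableWithinAt
    have hbdd : BddAbove (norm ∘ f '' (s \ {z₀})) := by
      refine ⟨B, ?_⟩
      rintro _ ⟨z, hz, rfl⟩
      exact (hz.1.1 hz.2).2
    have hupd := Complex.differentiableOn_update_limUnder_of_bddAbove hs_nhds hd hbdd
    have hcongr : ∀ z ∈ s, G z = update f z₀ (limUnder (𝓝[≠] z₀) f) z := by
      intro z hz
      by_cases hzz : z = z₀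
      · subst hzz
        simp [hG]
      · rw [update_of_ne hzz]
        exact hGeq z hz.2 (hz.1 hzz).1
    exact (hupd.congr hcongr).differentiableAt hs_nhds
  refine ⟨G, fun z hz => (hdiffAt z hz).differentiableWithinAt, ?_⟩
  intro z₀ hz₀
  have hU' : ∀ᶠ z in 𝓝[≠] z₀, z ∈ U := nhdsWithin_le_nhds (hU.mem_nhds hz₀)
  have hev : ∀ᶠ z in 𝓝[≠] z₀, G z * p z = q z := by
    filter_upwards [hp0 z₀ hz₀, hU'] with z hpz hzU
    rw [hGeq z hzU hpz, div_mul_cancel₀ _ hpz]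
  have h1 : Tendsto (fun z => G z * p z) (𝓝[≠] z₀) (𝓝 (G z₀ * p z₀)) :=
    (((hdiffAt z₀ hz₀).continuousAt).mul
      ((hp.differentiableAt (hU.mem_nhds hz₀)).continuousAt)).tendsto.mono_left
        nhdsWithin_le_nhds
  have h2 : Tendsto (fun z => G z * p z) (𝓝[≠] z₀) (𝓝 (q z₀)) :=
    (((hq.differentiableAt (hU.mem_nhds hz₀)).continuousAt).tendsto.mono_left
      nhdsWithin_le_nhds).congr' (hev.mono fun _ h => h.symm)
  exact tendsto_nhds_unique h1 h2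

end Fermat.Agent.H33
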