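import Mathlib
import Fermat.Agent.H33.HolQuot

/-!
# INT-8: holomorphic division by integrality + cusp condition (helper33, P-INT)
-/

open UpperHalfPlane ModularForm CongruenceSubgroup Filter Topology
open scoped MatrixGroups ModularForm Manifold

namespace Fermat.Agent.H33

/-- The zero set of a nonzero holomorphic function on `ℍ` has no accumulation point:
in `ℂ`-coordinates, the zeros are isolated. -/
lemma eventually_ne_zero_of_mdiff {P : ℍ → ℂ} (hP : MDiff P) (hP0 : P ≠ 0) (z₀ : ℂ)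
    (hz₀ : 0 < z₀.im) : ∀ᶠ z in 𝓝[≠] z₀, (P ∘ ofComplex) z ≠ 0 := by
  have hU : IsOpen {z : ℂ | 0 < z.im} := isOpen_lt continuous_const Complex.continuous_im
  have hd : DifferentiableOn ℂ (P ∘ ofComplex) {z : ℂ | 0 < z.im} :=
    UpperHalfPlane.mdifferentiable_iff.mp hP
  have han : AnalyticOnNhd ℂ (P ∘ ofComplex) {z : ℂ | 0 < z.im} := hd.analyticOnNhd hU
  rcases (han z₀ hz₀).eventually_eq_zero_or_eventually_ne_zero with h | h
  · exfalso
    have hpre : IsPreconnected {z : ℂ | 0 < z.im} :=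
      (convex_halfSpace_im_gt 0).isPreconnected
    have := han.eqOn_zero_of_preconnected_of_eventuallyEq_zero hpre hz₀ h
    apply hP0
    funext τ
    have h1 := this τ.im_pos
    simpa [ofComplex_apply] using h1
  · exact h

/-- The non-vanishing locus of a nonzero holomorphic function on `ℍ` is dense. -/
lemma dense_ne_zero_of_mdiff {P : ℍ → ℂ} (hP : MDiff P) (hP0 : P ≠ 0) :
    Dense {τ : ℍ | P τ ≠ 0} := by
  rw [dense_iff_inter_open]
  rintro V hV ⟨τ₀, hτ₀⟩
  have hV' : UpperHalfPlane.coe '' V ∈ 𝓝 (τ₀ : ℂ) :=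
    (isOpenEmbedding_coe.isOpenMap V hV).mem_nhds ⟨τ₀, hτ₀, rfl⟩
  have h1 : ∀ᶠ z in 𝓝[≠] (τ₀ : ℂ), z ∈ UpperHalfPlane.coe '' V := nhdsWithin_le_nhds hV'
  have h2 := eventually_ne_zero_of_mdiff hP hP0 (τ₀ : ℂ) τ₀.im_pos
  obtain ⟨z, ⟨τ, hτV, rfl⟩, hz⟩ := (h1.and h2).exists
  refine ⟨τ, hτV, ?_⟩
  simpa [ofComplex_apply] using hz


/-- **INT-8.** Holomorphic division by integrality plus the cusp condition: if `Q / P` satisfies
a monic polynomial equation whose lower coefficients are level-one cusp forms, then `Q / P` is a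
cusp form. -/
theorem exists_cuspForm_of_integral (N : ℕ) [NeZero N] (k w : ℤ)
    (P : ModularForm (Gamma0 N) w) (Q : ModularForm (Gamma0 N) (w + k)) (hP : P ≠ 0)
    (μ : ℕ) (hμ : 0 < μ) (c : ℕ → ℍ → ℂ)
    (hc : ∀ i < μ, ∃ g : CuspForm 𝒮ℒ (k * ((μ : ℤ) - (i : ℤ))), ⇑g = c i)
    (h : (⇑Q) ^ μ + ∑ i ∈ Finset.range μ, c i * (⇑Q) ^ i * (⇑P) ^ (μ - i) = 0) :
    ∃ h : CuspForm (Gamma0 N) k, ∀ z, h z * P z = Q z := by
  classical
  have _hμ' := hμ
  choose g hg using hc
  have hPfun : (⇑P : ℍ → ℂ) ≠ 0 := by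
    intro h0
    apply hP
    ext τ
    simpa using congrFun h0 τ
  have hPmd : MDiff (⇑P : ℍ → ℂ) := ModularFormClass.holo P
  have hQmd : MDiff (⇑Q : ℍ → ℂ) := ModularFormClass.holo Q
  have hU : IsOpen {z : ℂ | 0 < z.im} := isOpen_lt continuous_const Complex.continuous_im
  have hPd : DifferentiableOn ℂ (⇑P ∘ ofComplex) {z : ℂ | 0 < z.im} :=
    UpperHalfPlane.mdifferentiable_iff.mp hPmd
  have hQd : DifferentiableOn ℂ (⇑Q ∘ ofComplex) {z : ℂ | 0 < z.im} :=
    UpperHalfPlane.mdifferentiable_iff.mp hQmd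
  have hcmd : ∀ i, i < μ → MDiff (c i) := fun i hi => by
    rw [← hg i hi]
    exact CuspFormClass.holo (g i hi)
  have hccont : ∀ i, i < μ → Continuous (c i) := fun i hi => (hcmd i hi).continuous
  -- the pointwise equation
  have hpt : ∀ τ : ℍ, Q τ ^ μ + ∑ i ∈ Finset.range μ, c i τ * Q τ ^ i * P τ ^ (μ - i) = 0 := by
    intro τ
    have := congrFun h τ
    simpa using this
  -- the root equation where `P ≠ 0`
  have hroot : ∀ τ : ℍ, P τ ≠ 0 →
      (Q τ / P τ) ^ μ + ∑ i ∈ Finset.range μ, c i τ * (Q τ / P τ) ^ i = 0 := by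
    intro τ hPτ
    have hPμ : P τ ^ μ ≠ 0 := pow_ne_zero _ hPτ
    apply mul_left_cancel₀ hPμ
    rw [mul_zero, ← hpt τ, mul_add, Finset.mul_sum]
    congr 1
    · rw [div_pow, mul_div_cancel₀ _ hPμ]
    · apply Finset.sum_congr rfl
      intro i hi
      have hi' : i ≤ μ := (Finset.mem_range.mp hi).le
      have hsplit : P τ ^ μ = P τ ^ i * P τ ^ (μ - i) := by
        rw [← pow_add]
        congr 1
        omega
      rw [div_pow, hsplit]
      field_simp
  -- local boundedness of the quotient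
  have hb : ∀ z₀ ∈ {z : ℂ | 0 < z.im}, ∃ B : ℝ, ∀ᶠ z in 𝓝[≠] z₀,
      ‖(⇑Q ∘ ofComplex) z / (⇑P ∘ ofComplex) z‖ ≤ B := by
    intro z₀ hz₀
    set S : ℂ → ℝ := fun z => ∑ i ∈ Finset.range μ, ‖c i (ofComplex z)‖ with hS
    have hScont : ContinuousAt S z₀ := by
      apply tendsto_finsetSum
      intro i hi
      have hci : DifferentiableOn ℂ (c i ∘ ofComplex) {z : ℂ | 0 < z.im} :=
        UpperHalfPlane.mdifferentiable_iff.mp (hcmd i (Finset.mem_range.mp hi))
      exact ((hci.differentiableAt (hU.mem_nhds hz₀)).continuousAt).norm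
    have hSev : ∀ᶠ z in 𝓝 z₀, S z < S z₀ + 1 :=
      hScont.tendsto.eventually (eventually_lt_nhds (lt_add_one (S z₀)))
    refine ⟨max 1 (S z₀ + 1), ?_⟩
    have hUev : ∀ᶠ z in 𝓝[≠] z₀, z ∈ {z : ℂ | 0 < z.im} :=
      nhdsWithin_le_nhds (hU.mem_nhds hz₀)
    filter_upwards [eventually_ne_zero_of_mdiff hPmd hPfun z₀ hz₀, hUev,
      nhdsWithin_le_nhds hSev] with z hpz hzU hSz
    have hr := hroot (ofComplex z) hpz
    have hbound := norm_le_of_monic_eq μ (fun i => c i (ofComplex z)) _ hr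
    refine hbound.trans (max_le_max le_rfl hSz.le)
  obtain ⟨G, hGd, hGp⟩ := exists_differentiableOn_of_locally_bounded_div hU hPd hQd
    (fun z₀ hz₀ => eventually_ne_zero_of_mdiff hPmd hPfun z₀ hz₀) hb
  -- the quotient on `ℍ`
  set hh : ℍ → ℂ := fun τ => G (τ : ℂ) with hhdef
  have hhmd : MDiff hh := by
    rw [UpperHalfPlane.mdifferentiable_iff]
    refine hGd.congr fun z hz => ?_
    simp only [Function.comp_apply, hhdef]
    rw [ofComplex_apply_of_im_pos hz]
  have hhcont : Continuous hh := hhmd.continuous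
  have hhP : ∀ τ : ℍ, hh τ * P τ = Q τ := by
    intro τ
    have := hGp (τ : ℂ) τ.im_pos
    simpa [ofComplex_apply] using this
  have hdense : Dense {τ : ℍ | P τ ≠ 0} := dense_ne_zero_of_mdiff hPmd hPfun
  have hhdiv : ∀ τ : ℍ, P τ ≠ 0 → hh τ = Q τ / P τ := fun τ hτ =>
    eq_div_of_mul_eq hτ (hhP τ)
  -- the monic equation for `hh`
  have hheq : ∀ τ : ℍ, hh τ ^ μ + ∑ i ∈ Finset.range μ, c i τ * hh τ ^ i = 0 := by
    have hcontL : Continuous fun τ : ℍ => hh τ ^ μ + ∑ i ∈ Finset.range μ, c i τ * hh τ ^ i := by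
      refine (hhcont.pow μ).add (continuous_finsetSum _ fun i hi => ?_)
      exact (hccont i (Finset.mem_range.mp hi)).mul (hhcont.pow i)
    have := Continuous.ext_on hdense hcontL (continuous_const (y := (0 : ℂ)))
      (fun τ hτ => by
        show hh τ ^ μ + ∑ i ∈ Finset.range μ, c i τ * hh τ ^ i = 0
        rw [hhdiv τ hτ]
        exact hroot τ hτ)
    exact fun τ => congrFun this τ
  -- slash invariance
  have hslash : ∀ γ ∈ ((Gamma0 N : Subgroup SL(2, ℤ)) : Subgroup (GL (Fin 2) ℝ)),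
      hh ∣[k] γ = hh := by
    intro γ hγ
    have hPγ : (⇑P : ℍ → ℂ) ∣[w] γ = P := SlashInvariantFormClass.slash_action_eq P γ hγ
    have hQγ : (⇑Q : ℍ → ℂ) ∣[w + k] γ = Q := SlashInvariantFormClass.slash_action_eq Q γ hγ
    obtain ⟨γ', -, rfl⟩ := Subgroup.mem_map.mp hγ
    have e1 : hh ∣[k] γ' = hh ∣[k] (Matrix.SpecialLinearGroup.mapGL ℝ γ') := rfl
    have e2 : (⇑P : ℍ → ℂ) ∣[w] γ' = (⇑P : ℍ → ℂ) ∣[w] (Matrix.SpecialLinearGroup.mapGL ℝ γ') :=
      rfl
    have e3 : (⇑Q : ℍ → ℂ) ∣[w + k] γ' =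
        (⇑Q : ℍ → ℂ) ∣[w + k] (Matrix.SpecialLinearGroup.mapGL ℝ γ') := rfl
    have hQfun : (⇑Q : ℍ → ℂ) = hh * ⇑P := by
      funext τ
      exact (hhP τ).symm
    have hmul : (hh ∣[k] γ') * ⇑P = hh * ⇑P := by
      have h1 := mul_slash_SL2 k w γ' hh (⇑P)
      rw [← hQfun, add_comm k w, e3, hQγ, e2, hPγ] at h1
      rw [← h1, hQfun]
    have hcontL : Continuous (hh ∣[k] γ') := by
      rw [e1]
      exact (hhmd.slash k _).continuous
    rw [← e1]
    refine Continuous.ext_on hdense hcontL hhcont ?_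
    intro τ hτ
    have := congrFun hmul τ
    simp only [Pi.mul_apply] at this
    exact mul_right_cancel₀ hτ this
  -- vanishing at the cusps
  have hzero : ∀ γ : SL(2, ℤ), IsZeroAtImInfty (hh ∣[k] γ) := by
    intro γ
    have hx : ∀ τ : ℍ, ((hh ∣[k] γ) τ) ^ μ +
        ∑ i ∈ Finset.range μ, c i τ * ((hh ∣[k] γ) τ) ^ i = 0 := by
      intro τ
      have hd : denom γ τ ≠ 0 := denom_ne_zero γ τ
      have hci : ∀ i ∈ Finset.range μ,
          c i τ = c i (γ • τ) * denom γ τ ^ (-(k * ((μ : ℤ) - (i : ℤ)))) := by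
        intro i hi
        have hi' := Finset.mem_range.mp hi
        have hinv : (⇑(g i hi') : ℍ → ℂ) ∣[k * ((μ : ℤ) - (i : ℤ))] γ = ⇑(g i hi') :=
          SlashInvariantFormClass.slash_action_eq (g i hi') _ ⟨γ, rfl⟩
        have := congrFun hinv τ
        rw [SL_slash_apply, hg i hi'] at this
        exact this.symm
      have hE := hheq (γ • τ)
      rw [SL_slash_apply]
      have hkey : (hh (γ • τ) * denom γ τ ^ (-k)) ^ μ +
          ∑ i ∈ Finset.range μ, c i τ * (hh (γ • τ) * denom γ τ ^ (-k)) ^ i =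
          denom γ τ ^ (-(k * (μ : ℤ))) *
            (hh (γ • τ) ^ μ + ∑ i ∈ Finset.range μ, c i (γ • τ) * hh (γ • τ) ^ i) := by
        rw [mul_add, Finset.mul_sum]
        congr 1
        · rw [mul_pow, ← zpow_natCast (denom γ τ ^ (-k)) μ, ← zpow_mul, mul_comm, neg_mul]
        · apply Finset.sum_congr rfl
          intro i hi
          rw [hci i hi, mul_pow, ← zpow_natCast (denom γ τ ^ (-k)) i, ← zpow_mul]
          have : denom γ τ ^ (-(k * (μ : ℤ))) =
              denom γ τ ^ (-(k * ((μ : ℤ) - (i : ℤ)))) * denom γ τ ^ (-k * (i : ℤ)) := by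
            rw [← zpow_add₀ hd]
            congr 1
            ring
          rw [this]
          ring
      rw [hkey, hE, mul_zero]
    -- the coefficients tend to zero
    have hS0 : Tendsto (fun τ : ℍ => ∑ i ∈ Finset.range μ, ‖c i τ‖) atImInfty (𝓝 0) := by
      have : Tendsto (fun τ : ℍ => ∑ i ∈ Finset.range μ, ‖c i τ‖) atImInfty
          (𝓝 (∑ _i ∈ Finset.range μ, (0 : ℝ))) := by
        apply tendsto_finsetSum
        intro i hi
        have hi' := Finset.mem_range.mp hi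
        have hz : IsZeroAtImInfty (⇑(g i hi') : ℍ → ℂ) := CuspFormClass.zero_at_infty (g i hi')
        rw [hg i hi'] at hz
        have := hz.norm
        simpa using this
      simpa using this
    rw [IsZeroAtImInfty, ZeroAtFilter, Metric.tendsto_nhds]
    intro ε hε
    have hεμ : 0 < min 1 (ε ^ μ) := lt_min one_pos (pow_pos hε μ)
    have hev : ∀ᶠ τ in atImInfty, ∑ i ∈ Finset.range μ, ‖c i τ‖ < min 1 (ε ^ μ) :=
      hS0.eventually (eventually_lt_nhds hεμ)
    filter_upwards [hev] with τ hτ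
    rw [dist_zero_right]
    have h1 : ∑ i ∈ Finset.range μ, ‖c i τ‖ ≤ 1 := (hτ.trans_le (min_le_left _ _)).le
    have h2 := norm_pow_le_of_monic_eq μ (fun i => c i τ) _ (hx τ) h1
    have h3 : ‖(hh ∣[k] γ) τ‖ ^ μ < ε ^ μ := h2.trans_lt (hτ.trans_le (min_le_right _ _))
    exact lt_of_pow_lt_pow_left₀ μ hε.le h3
  refine ⟨{ toFun := hh
            slash_action_eq' := hslash
            holo' := hhmd
            zero_at_cusps' := ?_ }, fun τ => hhP τ⟩
  intro c' hc'
  rw [Subgroup.IsArithmetic.isCusp_iff_isCusp_SL2Z] at hc'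
  rw [OnePoint.isZeroAt_iff_forall_SL2Z hc']
  intro γ _
  exact hzero γ

end Fermat.Agent.H33
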