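/-
Surjectivity of the analytic `j`-function `E₄³/Δ : ℍ → ℂ` (part of GEN-12, P-GENUS).
Only Mathlib is used here.
-/
import Mathlib

set_option autoImplicit false

noncomputable section

open Filter Topology UpperHalfPlane ModularForm
open scoped MatrixGroups Manifold Modular

namespace Fermat.Agent.H33

/-- The analytic `j`-function `E₄³/Δ`. -/
def jf (z : ℍ) : ℂ := (ModularForm.E₄ z) ^ 3 / ModularForm.discriminant z

lemma tendsto_levelOne_atImInfty_jf {k : ℤ} (f : ModularForm 𝒮ℒ k) :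
    Tendsto f atImInfty (𝓝 ((qExpansion 1 f).coeff 0)) := by
  have hana : AnalyticAt ℂ (cuspFunction 1 f) 0 :=
    ModularFormClass.analyticAt_cuspFunction_zero f one_pos one_mem_strictPeriods_SL
  have hper : Function.Periodic ((f : ℍ → ℂ) ∘ UpperHalfPlane.ofComplex) 1 :=
    SlashInvariantFormClass.periodic_comp_ofComplex f one_mem_strictPeriods_SL
  have h0 : (qExpansion 1 f).coeff 0 = cuspFunction 1 f 0 := by
    rw [UpperHalfPlane.qExpansion_coeff_zero one_pos hana hper,
      UpperHalfPlane.cuspFunction_apply_zero one_pos hana hper]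
  have hcomp : (cuspFunction 1 f ∘ fun τ : ℍ ↦ Function.Periodic.qParam 1 τ : ℍ → ℂ) = f := by
    funext τ
    simpa using SlashInvariantFormClass.eq_cuspFunction f τ one_mem_strictPeriods_SL one_ne_zero
  rw [h0]
  have := hana.continuousAt.tendsto.comp (UpperHalfPlane.qParam_tendsto_atImInfty one_pos)
  rwa [hcomp] at this

lemma tendsto_E₄_atImInfty_jf : Tendsto E₄ atImInfty (𝓝 1) := by
  have h := tendsto_levelOne_atImInfty_jf E₄
  rwa [EisensteinSeries.E_qExpansion_coeff_zero _ ⟨2, rfl⟩] at h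

/-- `‖j‖ → ∞` at `i∞`. -/
lemma tendsto_norm_jf_atImInfty : Tendsto (fun z => ‖jf z‖) atImInfty atTop := by
  have h1 : Tendsto (fun z : ℍ => ‖(E₄ z) ^ 3‖) atImInfty (𝓝 1) := by
    have := (tendsto_E₄_atImInfty_jf.pow 3).norm
    simpa using this
  have h2 : Tendsto (fun z : ℍ => ‖ModularForm.discriminant z‖) atImInfty (𝓝[>] 0) := by
    rw [tendsto_nhdsWithin_iff]
    refine ⟨?_, Eventually.of_forall fun z => ?_⟩
    · have := (ModularForm.discriminant_isZeroAtImInfty).norm
      simpa using this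
    · simpa using ModularForm.discriminant_ne_zero z
  have h3 : Tendsto (fun z : ℍ => ‖ModularForm.discriminant z‖⁻¹) atImInfty atTop :=
    tendsto_inv_nhdsGT_zero.comp h2
  have h4 := h1.pos_mul_atTop one_pos h3
  refine h4.congr fun z => ?_
  simp [jf, div_eq_mul_inv]

lemma exists_forall_le_norm_jf (B : ℝ) : ∃ A : ℝ, ∀ z : ℍ, A ≤ z.im → B ≤ ‖jf z‖ := by
  have := tendsto_norm_jf_atImInfty.eventually (eventually_ge_atTop B)
  exact (atImInfty_mem _).1 this

/-- `j` is `SL(2,ℤ)`-invariant. -/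
lemma jf_smul (γ : SL(2, ℤ)) (z : ℍ) : jf (γ • z) = jf z := by
  have h4 : E₄ (γ • z) = (denom (Matrix.SpecialLinearGroup.mapGL ℝ γ) z) ^ (4 : ℤ) * E₄ z :=
    SlashInvariantForm.slash_action_eqn'' (Γ := 𝒮ℒ) E₄
      (γ := Matrix.SpecialLinearGroup.mapGL ℝ γ) ⟨γ, rfl⟩ z
  have h12 : CuspForm.discriminant (γ • z) =
      (denom (Matrix.SpecialLinearGroup.mapGL ℝ γ) z) ^ (12 : ℤ) * CuspForm.discriminant z :=
    SlashInvariantForm.slash_action_eqn'' (Γ := 𝒮ℒ) CuspForm.discriminant
      (γ := Matrix.SpecialLinearGroup.mapGL ℝ γ) ⟨γ, rfl⟩ z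
  have hd : denom (Matrix.SpecialLinearGroup.mapGL ℝ γ) z ≠ 0 := denom_ne_zero _ z
  have hΔ : ModularForm.discriminant z ≠ 0 := ModularForm.discriminant_ne_zero z
  simp only [CuspForm.coe_discriminant] at h12
  unfold jf
  rw [h4, h12]
  field_simp

/-- `j ∘ ofComplex` is differentiable on the upper half plane. -/
lemma differentiableOn_jf : DifferentiableOn ℂ (jf ∘ ofComplex) {z | 0 < z.im} := by
  have h4 : DifferentiableOn ℂ ((E₄ : ℍ → ℂ) ∘ ofComplex) {z | 0 < z.im} :=
    UpperHalfPlane.mdifferentiable_iff.1 (ModularFormClass.holo E₄)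
  have h12 : DifferentiableOn ℂ ((CuspForm.discriminant : ℍ → ℂ) ∘ ofComplex) {z | 0 < z.im} :=
    UpperHalfPlane.mdifferentiable_iff.1 (CuspFormClass.holo CuspForm.discriminant)
  have := (h4.pow 3).div h12 (fun z _ => ModularForm.discriminant_ne_zero _)
  exact this.congr (fun z _ => by simp [jf])

lemma range_jf_eq : Set.range jf = (jf ∘ ofComplex) '' {z | 0 < z.im} := by
  ext w
  constructor
  · rintro ⟨z, rfl⟩
    exact ⟨(z : ℂ), z.im_pos, by simp⟩
  · rintro ⟨z, _, rfl⟩
    exact ⟨ofComplex z, rfl⟩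

lemma isOpen_range_jf : IsOpen (Set.range jf) := by
  have hU : IsOpen {z : ℂ | 0 < z.im} := isOpen_upperHalfPlaneSet
  have han : AnalyticOnNhd ℂ (jf ∘ ofComplex) {z | 0 < z.im} :=
    differentiableOn_jf.analyticOnNhd hU
  have hpre : IsPreconnected {z : ℂ | 0 < z.im} := (convex_halfSpace_im_gt 0).isPreconnected
  rcases han.is_constant_or_isOpen hpre with ⟨w, hw⟩ | h
  · exfalso
    obtain ⟨A, hA⟩ := exists_forall_le_norm_jf (‖w‖ + 1)
    have hpos : (0 : ℝ) < max A 1 := lt_of_lt_of_le one_pos (le_max_right _ _)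
    let z : ℍ := ⟨⟨0, max A 1⟩, hpos⟩
    have h1 : ‖w‖ + 1 ≤ ‖jf z‖ := hA z (le_max_left _ _)
    have h2 : (jf ∘ ofComplex) (z : ℂ) = w := hw _ z.im_pos
    simp only [Function.comp_apply, ofComplex_apply] at h2
    rw [h2] at h1
    linarith
  · rw [range_jf_eq]
    exact h _ subset_rfl hU

lemma closure_range_jf_subset : closure (Set.range jf) ⊆ Set.range jf := by
  intro a ha
  obtain ⟨A, hA⟩ := exists_forall_le_norm_jf (‖a‖ + 1)
  let K : Set ℂ := {w | 1 ≤ Complex.normSq w ∧ |w.re| ≤ 1 / 2 ∧ 0 ≤ w.im ∧ w.im ≤ A}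
  have hKU : K ⊆ {z | 0 < z.im} := by
    rintro w ⟨h1, h2, h3, -⟩
    rw [Complex.normSq_apply] at h1
    have h2' := abs_le.1 h2
    show 0 < w.im
    by_contra hneg
    have h0 : w.im = 0 := le_antisymm (not_lt.1 hneg) h3
    rw [h0] at h1
    nlinarith [h2'.1, h2'.2]
  have hKc : IsCompact K := by
    apply Metric.isCompact_of_isClosed_isBounded
    · have e : K = {w | 1 ≤ Complex.normSq w} ∩ ({w | |w.re| ≤ 1 / 2} ∩
          ({w | 0 ≤ w.im} ∩ {w | w.im ≤ A})) := by
        ext w; rfl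
      rw [e]
      refine (isClosed_le continuous_const Complex.continuous_normSq).inter
        ((isClosed_le (continuous_abs.comp Complex.continuous_re) continuous_const).inter
        ((isClosed_le continuous_const Complex.continuous_im).inter
        (isClosed_le Complex.continuous_im continuous_const)))
    · rw [Metric.isBounded_iff_subset_closedBall (0 : ℂ)]
      refine ⟨1 / 2 + |A|, ?_⟩
      rintro w ⟨-, h2, h3, h4⟩
      rw [mem_closedBall_zero_iff]
      calc ‖w‖ ≤ |w.re| + |w.im| := Complex.norm_le_abs_re_add_abs_im w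
        _ ≤ 1 / 2 + |A| := by
          have h5 : |w.im| ≤ |A| := by
            rw [abs_of_nonneg h3]
            exact h4.trans (le_abs_self A)
          linarith
  have hcont : ContinuousOn (jf ∘ ofComplex) K := differentiableOn_jf.continuousOn.mono hKU
  have himg : IsCompact ((jf ∘ ofComplex) '' K) := hKc.image_of_continuousOn hcont
  have hsub : Metric.ball a 1 ∩ Set.range jf ⊆ (jf ∘ ofComplex) '' K := by
    rintro _ ⟨hz, ⟨z, rfl⟩⟩
    obtain ⟨γ, hγ⟩ := ModularGroup.exists_smul_mem_fd z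
    refine ⟨((γ • z : ℍ) : ℂ), ⟨hγ.1, hγ.2, (γ • z).im_pos.le, ?_⟩, ?_⟩
    · by_contra hlt
      have hlt' : A ≤ (γ • z).im := (not_le.1 hlt).le
      have h1 := hA (γ • z) hlt'
      rw [jf_smul] at h1
      rw [Metric.mem_ball, dist_eq_norm] at hz
      have h2 : ‖jf z‖ ≤ ‖jf z - a‖ + ‖a‖ := by
        have := norm_add_le (jf z - a) a
        simpa using this
      linarith
    · show jf (ofComplex ((γ • z : ℍ) : ℂ)) = jf z
      rw [ofComplex_apply, jf_smul]
  have hmem : a ∈ closure (Metric.ball a 1 ∩ Set.range jf) :=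
    Metric.isOpen_ball.inter_closure ⟨Metric.mem_ball_self one_pos, ha⟩
  obtain ⟨w, _, rfl⟩ := closure_minimal hsub himg.isClosed hmem
  exact ⟨ofComplex w, rfl⟩

/-- The analytic `j`-function is surjective. -/
theorem jf_surjective : ∀ a : ℂ, ∃ z : ℍ, jf z = a := by
  have hclopen : IsClopen (Set.range jf) :=
    ⟨isClosed_of_closure_subset closure_range_jf_subset, isOpen_range_jf⟩
  have huniv := hclopen.eq_univ (Set.range_nonempty jf)
  intro a
  have : a ∈ Set.range jf := by rw [huniv]; trivial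
  exact this

end Fermat.Agent.H33

end
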