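/-
Part of GEN-12 (P-GENUS): invariance, holomorphy and SURJECTIVITY of the analytic `j`-function
`Fermat.Agent.H23.jfun` (the first three clauses of `Fermat.Agent.H23.JFactsStatement`).
-/
import Fermat.Agent.H23.BlueprintAn
import Fermat.Agent.H33.JSurjCore

set_option autoImplicit false

noncomputable section

open Filter Topology UpperHalfPlane
open scoped MatrixGroups Manifold

namespace Fermat.Agent.H33

lemma jfun_eq_jf : Fermat.Agent.H23.jfun = jf := rfl

/-- `j` is `SL(2,ℤ)`-invariant. -/
theorem jfun_smul (γ : SL(2, ℤ)) (z : ℍ) :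
    Fermat.Agent.H23.jfun (γ • z) = Fermat.Agent.H23.jfun z :=
  jf_smul γ z

/-- `j` is holomorphic on the upper half plane. -/
theorem mdiff_jfun : MDiff Fermat.Agent.H23.jfun :=
  UpperHalfPlane.mdifferentiable_iff.2 differentiableOn_jf

/-- `j` is surjective. -/
theorem jfun_surjective : ∀ a : ℂ, ∃ z : ℍ, Fermat.Agent.H23.jfun z = a :=
  jf_surjective

/-- `‖j z‖ → ∞` as `Im z → ∞`. -/
theorem tendsto_norm_jfun_atImInfty :
    Tendsto (fun z => ‖Fermat.Agent.H23.jfun z‖) atImInfty atTop :=
  tendsto_norm_jf_atImInfty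

end Fermat.Agent.H33

end
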